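/-
S16 (U), level-one polynomial norm route (helper76): the product of a finite family of functions
on `ℍ` that is permuted by the weight-`k` slash action of `S` and `T` is a level-one modular form
of weight `k * card`, and its `q`-expansions (period `1` and period `p`).
-/
import Mathlib
import Fermat.Agent.S16.Conj53.Symm
import Fermat.Prelude.Thm_UpperHalfPlane_qExpansion_prod
import Fermat.Prelude.Thm_UpperHalfPlane_qExpansion_coeff_nat_mul

set_option autoImplicit false

open UpperHalfPlane ModularForm CongruenceSubgroup ModularGroup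
open scoped MatrixGroups ModularForm Manifold

namespace Fermat.Agent.S16.NormL1_76

variable {ι : Type} [Fintype ι] {k : ℤ}

theorem prod_univ_slash (F : ι → ℍ → ℂ) (γ : SL(2, ℤ)) (σ : Equiv.Perm ι)
    (h : ∀ a, F a ∣[k] γ = F (σ a)) :
    (∏ a, F a) ∣[k * (Fintype.card ι : ℤ)] γ = ∏ a, F a := by
  have h1 := Conj53.prod_slash_SL (k := k) F (Finset.univ : Finset ι) γ
  rw [Finset.card_univ] at h1
  rw [h1]
  simp_rw [h]
  exact Equiv.prod_comp σ F

/-- The product of a family permuted by `S` and `T`, as a level-one modular form. -/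
noncomputable def prodForm (F : ι → ℍ → ℂ) (σS σT : Equiv.Perm ι)
    (hS : ∀ a, F a ∣[k] S = F (σS a)) (hT : ∀ a, F a ∣[k] T = F (σT a))
    (hol : ∀ a, MDiff (F a)) (bdd : ∀ a, IsBoundedAtImInfty (F a)) :
    ModularForm 𝒮ℒ (k * (Fintype.card ι : ℤ)) where
  toFun := ∏ a, F a
  slash_action_eq' A hA := by
    obtain ⟨A, rfl⟩ := hA
    exact SlashInvariantForm.slash_action_generators_SL2Z (prod_univ_slash F S σS hS)
      (prod_univ_slash F T σT hT) A
  holo' := by
    show MDiff (∏ a, F a)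
    exact MDifferentiable.prod (t := Finset.univ) (f := F) fun a _ => hol a
  bdd_at_cusps' hc := by
    rw [Subgroup.IsArithmetic.isCusp_iff_isCusp_SL2Z] at hc
    rw [OnePoint.isBoundedAt_iff_forall_SL2Z hc]
    intro γ _
    rw [SlashInvariantForm.slash_action_generators_SL2Z (prod_univ_slash F S σS hS)
      (prod_univ_slash F T σT hT) γ]
    rw [IsBoundedAtImInfty, Filter.BoundedAtFilter]
    rw [show (1 : ℍ → ℝ) = (fun x ↦ ∏ (_a ∈ (Finset.univ : Finset ι)), (1 : ℝ)) by ext; simp,
      Finset.prod_fn]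
    exact Asymptotics.IsBigO.finsetProd fun a _ => bdd a

theorem coe_prodForm (F : ι → ℍ → ℂ) (σS σT : Equiv.Perm ι)
    (hS : ∀ a, F a ∣[k] S = F (σS a)) (hT : ∀ a, F a ∣[k] T = F (σT a))
    (hol : ∀ a, MDiff (F a)) (bdd : ∀ a, IsBoundedAtImInfty (F a)) :
    ⇑(prodForm F σS σT hS hT hol bdd) = ∏ a, F a := rfl

theorem qExpansion_prodForm {h : ℝ} (F : ι → ℍ → ℂ) (σS σT : Equiv.Perm ι)
    (hS : ∀ a, F a ∣[k] S = F (σS a)) (hT : ∀ a, F a ∣[k] T = F (σT a))
    (hol : ∀ a, MDiff (F a)) (bdd : ∀ a, IsBoundedAtImInfty (F a))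
    (han : ∀ a, AnalyticAt ℂ (cuspFunction h (F a)) 0) :
    qExpansion h (prodForm F σS σT hS hT hol bdd) = ∏ a, qExpansion h (F a) := by
  rw [coe_prodForm]
  exact UpperHalfPlane.qExpansion_prod Finset.univ fun i _ => han i

/-- Period change for a level-one form. -/
theorem qExpansion_one_coeff {w : ℤ} (N : ModularForm 𝒮ℒ w) {p : ℕ} (hp : 0 < p) (n : ℕ) :
    (qExpansion 1 N).coeff n = (qExpansion (p : ℝ) N).coeff (p * n) := by
  have hper : Function.Periodic ((N : ℍ → ℂ) ∘ UpperHalfPlane.ofComplex) 1 :=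
    SlashInvariantFormClass.periodic_comp_ofComplex N (by simp)
  have h := UpperHalfPlane.qExpansion_coeff_nat_mul (h := 1) one_pos hper
    (ModularFormClass.holo N) (ModularFormClass.bdd_at_infty N) hp (p * n)
  rw [mul_one] at h
  rw [h, if_pos (dvd_mul_right p n), Nat.mul_div_cancel_left n hp]

end Fermat.Agent.S16.NormL1_76
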