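/-
S16 (U), level-one polynomial norm route (helper76): the ring of `l`-integral algebraic numbers.
Mathlib only.
-/
import Mathlib

set_option autoImplicit false

namespace Fermat.Agent.S16.NormL1_76

/-- The `l`-integral algebraic numbers: `x ∈ ℂ` such that `m * x` is an algebraic integer for some
natural number `m` prime to `l`. -/
def ellInt (l : ℕ) [hl : Fact l.Prime] : Subring ℂ where
  carrier := {x | ∃ m : ℕ, ¬ l ∣ m ∧ IsIntegral ℤ ((m : ℂ) * x)}
  mul_mem' := by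
    rintro x y ⟨m, hm, hx⟩ ⟨m', hm', hy⟩
    refine ⟨m * m', fun h => ?_, ?_⟩
    · rcases (Nat.Prime.dvd_mul hl.out).mp h with h | h
      · exact hm h
      · exact hm' h
    · have : ((m * m' : ℕ) : ℂ) * (x * y) = ((m : ℂ) * x) * ((m' : ℂ) * y) := by push_cast; ring
      rw [this]; exact hx.mul hy
  one_mem' := ⟨1, by simpa using hl.out.one_lt.ne', by simpa using isIntegral_one⟩
  add_mem' := by
    rintro x y ⟨m, hm, hx⟩ ⟨m', hm', hy⟩
    refine ⟨m * m', fun h => ?_, ?_⟩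
    · rcases (Nat.Prime.dvd_mul hl.out).mp h with h | h
      · exact hm h
      · exact hm' h
    · have : ((m * m' : ℕ) : ℂ) * (x + y) = (m' : ℂ) * ((m : ℂ) * x) + (m : ℂ) * ((m' : ℂ) * y) := by
        push_cast; ring
      rw [this]
      have h1 : IsIntegral ℤ ((m' : ℂ)) := by
        simpa using (isIntegral_algebraMap (R := ℤ) (A := ℂ) (x := (m' : ℤ)))
      have h2 : IsIntegral ℤ ((m : ℂ)) := by
        simpa using (isIntegral_algebraMap (R := ℤ) (A := ℂ) (x := (m : ℤ)))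
      exact (h1.mul hx).add (h2.mul hy)
  zero_mem' := ⟨1, by simpa using hl.out.one_lt.ne', by simpa using isIntegral_zero⟩
  neg_mem' := by
    rintro x ⟨m, hm, hx⟩
    refine ⟨m, hm, ?_⟩
    have : (m : ℂ) * -x = -((m : ℂ) * x) := by ring
    rw [this]; exact hx.neg

variable {l : ℕ} [hl : Fact l.Prime]

theorem mem_ellInt {x : ℂ} : x ∈ ellInt l ↔ ∃ m : ℕ, ¬ l ∣ m ∧ IsIntegral ℤ ((m : ℂ) * x) := Iff.rfl

theorem mem_ellInt_of_isIntegral {x : ℂ} (hx : IsIntegral ℤ x) : x ∈ ellInt l :=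
  ⟨1, by simpa using hl.out.one_lt.ne', by simpa using hx⟩

theorem intCast_mem_ellInt (n : ℤ) : (n : ℂ) ∈ ellInt l :=
  mem_ellInt_of_isIntegral (by simpa using (isIntegral_algebraMap (R := ℤ) (A := ℂ) (x := n)))

theorem natCast_mem_ellInt (n : ℕ) : (n : ℂ) ∈ ellInt l := by
  exact_mod_cast intCast_mem_ellInt (l := l) (n : ℤ)

/-- `m / d` with `l ∤ d` is `l`-integral. -/
theorem div_mem_ellInt (m : ℤ) {d : ℕ} (hd : ¬ l ∣ d) : (m : ℂ) / (d : ℂ) ∈ ellInt l := by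
  have hd0 : (d : ℂ) ≠ 0 := by
    intro h
    apply hd
    have : d = 0 := by exact_mod_cast h
    simp [this]
  refine ⟨d, hd, ?_⟩
  have : (d : ℂ) * ((m : ℂ) / (d : ℂ)) = (m : ℂ) := by field_simp
  rw [this]
  simpa using (isIntegral_algebraMap (R := ℤ) (A := ℂ) (x := m))

/-- A root of unity is `l`-integral. -/
theorem mem_ellInt_of_pow_eq_one {x : ℂ} {n : ℕ} (hn : 0 < n) (hx : x ^ n = 1) : x ∈ ellInt l :=
  mem_ellInt_of_isIntegral (IsIntegral.of_pow hn (by rw [hx]; exact isIntegral_one))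

/-- If the integer `n` lies in `l • ellInt l` then `l ∣ n`. -/
theorem dvd_of_intCast_eq_mul {n : ℤ} {y : ℂ} (hy : y ∈ ellInt l) (h : (n : ℂ) = (l : ℂ) * y) :
    (l : ℤ) ∣ n := by
  obtain ⟨m, hm, hmy⟩ := hy
  have hl0 : (l : ℂ) ≠ 0 := by exact_mod_cast hl.out.ne_zero
  -- m * y = m * n / l is a rational number that is an algebraic integer
  have hy' : y = (n : ℂ) / (l : ℂ) := by field_simp; rw [h]; ring
  have hq : (m : ℂ) * y = (((m : ℚ) * (n : ℚ) / (l : ℚ) : ℚ) : ℂ) := by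
    rw [hy']; push_cast; ring
  rw [hq] at hmy
  have hmy' : IsIntegral ℤ ((m : ℚ) * (n : ℚ) / (l : ℚ) : ℚ) :=
    (isIntegral_algebraMap_iff (A := ℚ) (B := ℂ) (R := ℤ) (algebraMap ℚ ℂ).injective).mp hmy
  obtain ⟨k, hk⟩ := IsIntegrallyClosed.isIntegral_iff.mp hmy'
  have hl0' : (l : ℚ) ≠ 0 := by exact_mod_cast hl.out.ne_zero
  have hk' : (m : ℤ) * n = l * k := by
    have : (m : ℚ) * (n : ℚ) = (l : ℚ) * (k : ℚ) := by
      have hk2 : (k : ℚ) = (m : ℚ) * (n : ℚ) / (l : ℚ) := by simpa using hk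
      rw [hk2]; field_simp
    exact_mod_cast this
  have hdvd : (l : ℤ) ∣ (m : ℤ) * n := ⟨k, hk'⟩
  have hpr : Prime (l : ℤ) := Nat.prime_iff_prime_int.mp hl.out
  rcases hpr.dvd_or_dvd hdvd with h1 | h1
  · exact absurd (by exact_mod_cast h1) hm
  · exact h1

end Fermat.Agent.S16.NormL1_76
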