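/-
S16 (U), level-one polynomial norm route (helper76): the core contradiction.
A family `F v` (`v ∈ ℙ¹(𝔽_p)`) of holomorphic functions permuted by the weight-`w` slash action of
`S`, `T`, whose period-`p` expansions have `l`-integral coefficients and are all congruent mod `l`
to one series `D` of order `p * m₀` with leading coefficient an integer prime to `l`, cannot exist
when `w < 12` (level-one Sturm bound modulo `l`).
-/
import Mathlib
import Fermat.Agent.S16.NormL1_76.Ring
import Fermat.Agent.S16.NormL1_76.Series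
import Fermat.Agent.S16.NormL1_76.Family

set_option autoImplicit false

open UpperHalfPlane ModularForm CongruenceSubgroup ModularGroup
open scoped MatrixGroups ModularForm Manifold

namespace Fermat.Agent.S16.NormL1_76

/-- Level-one Sturm bound modulo an additive subgroup (Miller basis), as a hypothesis. -/
def SturmModStmt : Prop :=
  ∀ (w : ℤ), 0 ≤ w → ∀ (f : ModularForm 𝒮ℒ w) (A : AddSubgroup ℂ),
    (∀ n : ℕ, 12 * (n : ℤ) ≤ w → (qExpansion 1 f).coeff n ∈ A) →
    ∀ n : ℕ, (qExpansion 1 f).coeff n ∈ A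

variable {l : ℕ} [hl : Fact l.Prime]

/-- `l • 𝒪` as an additive subgroup of `ℂ`. -/
def ellSub (l : ℕ) [Fact l.Prime] : AddSubgroup ℂ where
  carrier := {x | ∃ y ∈ ellInt l, x = (l : ℂ) * y}
  add_mem' := by
    rintro _ _ ⟨y, hy, rfl⟩ ⟨y', hy', rfl⟩
    exact ⟨y + y', (ellInt l).add_mem hy hy', by ring⟩
  zero_mem' := ⟨0, (ellInt l).zero_mem, by simp⟩
  neg_mem' := by
    rintro _ ⟨y, hy, rfl⟩
    exact ⟨-y, (ellInt l).neg_mem hy, by ring⟩

theorem mem_ellSub_of_mem_span {x : ellInt l} (hx : x ∈ Ideal.span {((l : ℕ) : ellInt l)}) :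
    (x : ℂ) ∈ ellSub l := by
  obtain ⟨y, rfl⟩ := Ideal.mem_span_singleton'.mp hx
  exact ⟨y, y.2, by push_cast; ring⟩

theorem mem_span_of_mem_ellSub {x : ellInt l} (hx : (x : ℂ) ∈ ellSub l) :
    x ∈ Ideal.span {((l : ℕ) : ellInt l)} := by
  obtain ⟨y, hy, hxy⟩ := hx
  refine Ideal.mem_span_singleton'.mpr ⟨⟨y, hy⟩, ?_⟩
  apply Subtype.ext
  push_cast
  rw [hxy]; ring

theorem core_false {p : ℕ} [hp : Fact p.Prime] (hSturm : SturmModStmt) {w : ℤ} (hw0 : 0 ≤ w)
    (hw : w < 12)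
    (F : Option (ZMod p) → ℍ → ℂ) (σS σT : Equiv.Perm (Option (ZMod p)))
    (hS : ∀ a, F a ∣[w] S = F (σS a)) (hT : ∀ a, F a ∣[w] T = F (σT a))
    (hol : ∀ a, MDiff (F a)) (bdd : ∀ a, IsBoundedAtImInfty (F a))
    (han : ∀ a, AnalyticAt ℂ (cuspFunction (p : ℝ) (F a)) 0)
    (F' : Option (ZMod p) → PowerSeries (ellInt l))
    (hF' : ∀ v, (F' v).map (ellInt l).subtype = qExpansion (p : ℝ) (F v))
    (D : PowerSeries (ellInt l))
    (hcong : ∀ v n, PowerSeries.coeff n (F' v) - PowerSeries.coeff n D ∈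
      Ideal.span {((l : ℕ) : ellInt l)})
    (m₀ : ℕ) (hm₀ : 1 ≤ m₀)
    (hD0 : ∀ n < p * m₀, PowerSeries.coeff n D ∈ Ideal.span {((l : ℕ) : ellInt l)})
    (d : ℤ) (hd : PowerSeries.coeff (p * m₀) D = (d : ellInt l)) (hld : ¬ (l : ℤ) ∣ d) : False := by
  classical
  have hp0 : 0 < p := hp.out.pos
  set K := Fintype.card (Option (ZMod p)) with hK
  have hKp : K = p + 1 := by
    have : NeZero p := ⟨hp.out.ne_zero⟩
    rw [hK, Fintype.card_option, ZMod.card]
  set N := prodForm F σS σT hS hT hol bdd with hN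
  have hNq : qExpansion (p : ℝ) N = (∏ v, F' v).map (ellInt l).subtype := by
    rw [hN, qExpansion_prodForm F σS σT hS hT hol bdd han, map_prod]
    exact Finset.prod_congr rfl fun v _ => (hF' v).symm
  obtain ⟨h1, h2⟩ := prod_congr_mod (Ideal.span {((l : ℕ) : ellInt l)}) F' D hcong (p * m₀) hD0
  -- coefficients of the level-one expansion
  have hA : ∀ n : ℕ, (qExpansion 1 N).coeff n =
      ((PowerSeries.coeff (p * n) (∏ v, F' v) : ellInt l) : ℂ) := by
    intro n
    rw [qExpansion_one_coeff N hp0 n, hNq, PowerSeries.coeff_map]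
    rfl
  have hlow : ∀ n : ℕ, 12 * (n : ℤ) ≤ w * (K : ℤ) → (qExpansion 1 N).coeff n ∈ ellSub l := by
    intro n hn
    rw [hA]
    apply mem_ellSub_of_mem_span
    apply h1
    have hnK : n < K := by
      by_contra hcon
      rw [not_lt] at hcon
      have : (K : ℤ) ≤ n := by exact_mod_cast hcon
      have hK0 : (0 : ℤ) ≤ K := by positivity
      nlinarith
    calc p * n < p * K := by exact Nat.mul_lt_mul_of_pos_left hnK hp0
      _ ≤ p * m₀ * K := by
        have : p * K * 1 ≤ p * K * m₀ := Nat.mul_le_mul_left _ hm₀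
        calc p * K = p * K * 1 := by ring
          _ ≤ p * K * m₀ := this
          _ = p * m₀ * K := by ring
  have hall := hSturm _ (mul_nonneg hw0 (Int.natCast_nonneg K)) N (ellSub l) hlow (m₀ * K)
  rw [hA] at hall
  have h3 := mem_span_of_mem_ellSub hall
  have h4 : p * (m₀ * K) = p * m₀ * K := by ring
  rw [h4] at h3
  have h5 : (PowerSeries.coeff (p * m₀) D) ^ K ∈ Ideal.span {((l : ℕ) : ellInt l)} := by
    have h := (Ideal.span {((l : ℕ) : ellInt l)}).sub_mem h3 h2
    rwa [sub_sub_cancel] at h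
  rw [hd] at h5
  have h6 : (((d ^ K : ℤ) : ℂ)) ∈ ellSub l := by
    have := mem_ellSub_of_mem_span h5
    simpa using this
  obtain ⟨y, hy, hxy⟩ := h6
  have h7 : (l : ℤ) ∣ d ^ K := dvd_of_intCast_eq_mul hy hxy
  exact hld ((Nat.prime_iff_prime_int.mp hl.out).dvd_of_dvd_pow h7)

end Fermat.Agent.S16.NormL1_76
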