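/-
S16 (U), level-one polynomial norm route (helper76): families of functions indexed by
`ℙ¹(𝔽_p)`, permuted by `S`, `T`, together with `l`-integral lifts of their period-`p` expansions;
closed under products, sums, differences, scalars; constant families from level-one forms.
-/
import Mathlib
import Fermat.Agent.S16.NormL1_76.Core
import Fermat.Agent.S16.SturmMod32

set_option autoImplicit false

open UpperHalfPlane ModularForm CongruenceSubgroup ModularGroup
open scoped MatrixGroups ModularForm Manifold

namespace Fermat.Agent.S16.NormL1_76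

/-- The level-one Sturm bound modulo an additive subgroup (from `SturmMod32`). -/
theorem sturmModStmt : SturmModStmt := by
  intro w hw f A h n
  refine SturmMod32.coeff_mem_of_forall_le_int A f ?_ n
  intro m hm
  apply h
  have h1 : 12 * m ≤ w.toNat := by
    have := Nat.div_mul_le_self w.toNat 12
    nlinarith
  have h2 : ((w.toNat : ℕ) : ℤ) = w := Int.toNat_of_nonneg hw
  have h3 : ((12 * m : ℕ) : ℤ) ≤ ((w.toNat : ℕ) : ℤ) := by exact_mod_cast h1
  rw [h2] at h3
  exact_mod_cast h3

variable {p l : ℕ} [hp : Fact p.Prime] [hl : Fact l.Prime]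

/-- A family of functions indexed by `ℙ¹(𝔽_p)` permuted by the weight-`k` slash action, with
`l`-integral lifts of the period-`p` expansions. -/
structure Fam (p l : ℕ) [Fact p.Prime] [Fact l.Prime] (k : ℤ) where
  F : Option (ZMod p) → ℍ → ℂ
  hS : ∀ a, F a ∣[k] S = F (Conj53.sigmaS a)
  hT : ∀ a, F a ∣[k] T = F (Conj53.sigmaT a)
  hol : ∀ a, MDiff (F a)
  bdd : ∀ a, IsBoundedAtImInfty (F a)
  han : ∀ a, AnalyticAt ℂ (cuspFunction (p : ℝ) (F a)) 0
  F' : Option (ZMod p) → PowerSeries (ellInt l)
  hF' : ∀ v, (F' v).map (ellInt l).subtype = qExpansion (p : ℝ) (F v)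

namespace Fam

variable {k k₁ k₂ : ℤ}

/-- Product of two families. -/
noncomputable def mul (A : Fam p l k₁) (B : Fam p l k₂) : Fam p l (k₁ + k₂) where
  F v := A.F v * B.F v
  hS a := by rw [mul_slash_SL2, A.hS, B.hS]
  hT a := by rw [mul_slash_SL2, A.hT, B.hT]
  hol a := (A.hol a).mul (B.hol a)
  bdd a := (A.bdd a).mul (B.bdd a)
  han a := by
    rw [cuspFunction_mul (A.han a).continuousAt (B.han a).continuousAt]
    exact (A.han a).mul (B.han a)
  F' v := A.F' v * B.F' v
  hF' v := by rw [map_mul, A.hF', B.hF', qExpansion_mul (A.han v) (B.han v)]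

/-- Sum of two families. -/
noncomputable def add (A B : Fam p l k) : Fam p l k where
  F v := A.F v + B.F v
  hS a := by rw [SlashAction.add_slash, A.hS, B.hS]
  hT a := by rw [SlashAction.add_slash, A.hT, B.hT]
  hol a := (A.hol a).add (B.hol a)
  bdd a := (A.bdd a).add (B.bdd a)
  han a := by
    rw [cuspFunction_add (A.han a).continuousAt (B.han a).continuousAt]
    exact (A.han a).add (B.han a)
  F' v := A.F' v + B.F' v
  hF' v := by rw [map_add, A.hF', B.hF', qExpansion_add (A.han v) (B.han v)]

/-- Scalar multiple of a family by an `l`-integral number. -/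
noncomputable def smul (c : ellInt l) (A : Fam p l k) : Fam p l k where
  F v := (c : ℂ) • A.F v
  hS a := by rw [SL_smul_slash, A.hS]
  hT a := by rw [SL_smul_slash, A.hT]
  hol a := (A.hol a).const_smul (c : ℂ)
  bdd a := (A.bdd a).const_smul_left (c : ℂ)
  han a := by
    rw [cuspFunction_smul (A.han a).continuousAt]
    exact (A.han a).const_smul
  F' v := PowerSeries.C c * A.F' v
  hF' v := by
    rw [map_mul, A.hF', qExpansion_smul (A.han v), PowerSeries.map_C, ← PowerSeries.smul_eq_C_mul]
    rfl

/-- Difference of two families. -/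
noncomputable def sub (A B : Fam p l k) : Fam p l k where
  F v := A.F v - B.F v
  hS a := by rw [sub_eq_add_neg, SlashAction.add_slash, SlashAction.neg_slash, A.hS, B.hS,
    ← sub_eq_add_neg]
  hT a := by rw [sub_eq_add_neg, SlashAction.add_slash, SlashAction.neg_slash, A.hT, B.hT,
    ← sub_eq_add_neg]
  hol a := (A.hol a).sub (B.hol a)
  bdd a := (A.bdd a).sub (B.bdd a)
  han a := by
    rw [cuspFunction_sub (A.han a).continuousAt (B.han a).continuousAt]
    exact (A.han a).sub (B.han a)
  F' v := A.F' v - B.F' v
  hF' v := by rw [map_sub, A.hF', B.hF', qExpansion_sub (A.han v) (B.han v)]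

end Fam

/-- Period change `1 → p` as `PowerSeries.expand`. -/
theorem qExpansion_eq_expand {f : ℍ → ℂ} (hper : Function.Periodic (f ∘ ofComplex) 1)
    (hol : MDiff f) (bdd : IsBoundedAtImInfty f) :
    qExpansion (p : ℝ) f = PowerSeries.expand p hp.out.ne_zero (qExpansion 1 f) := by
  ext n
  have h := UpperHalfPlane.qExpansion_coeff_nat_mul (h := 1) one_pos hper hol bdd hp.out.pos n
  rw [mul_one] at h
  rw [h, PowerSeries.coeff_expand]

/-- The constant family of a level-one form with integral `q`-expansion. -/
noncomputable def Fam.const {k : ℤ} (E : ModularForm 𝒮ℒ k) (E0 : PowerSeries ℤ)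
    (hE : qExpansion 1 E = E0.map (Int.castRingHom ℂ)) : Fam p l k where
  F _ := E
  hS _ := by
    rw [SL_slash]
    exact SlashInvariantFormClass.slash_action_eq E _ ⟨S, rfl⟩
  hT _ := by
    rw [SL_slash]
    exact SlashInvariantFormClass.slash_action_eq E _ ⟨T, rfl⟩
  hol _ := ModularFormClass.holo E
  bdd _ := ModularFormClass.bdd_at_infty E
  han _ := by
    have hper : Function.Periodic ((E : ℍ → ℂ) ∘ ofComplex) 1 :=
      SlashInvariantFormClass.periodic_comp_ofComplex E (by simp)
    have hper' : Function.Periodic ((E : ℍ → ℂ) ∘ ofComplex) (p : ℝ) := by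
      have := hper.nat_mul p
      simpa using this
    exact analyticAt_cuspFunction_zero (by exact_mod_cast hp.out.pos) hper'
      (ModularFormClass.holo E) (ModularFormClass.bdd_at_infty E)
  F' _ := PowerSeries.expand p hp.out.ne_zero (E0.map (Int.castRingHom (ellInt l)))
  hF' _ := by
    have hper : Function.Periodic ((E : ℍ → ℂ) ∘ ofComplex) 1 :=
      SlashInvariantFormClass.periodic_comp_ofComplex E (by simp)
    rw [qExpansion_eq_expand hper (ModularFormClass.holo E) (ModularFormClass.bdd_at_infty E), hE,
      PowerSeries.map_expand]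
    congr 1

end Fermat.Agent.S16.NormL1_76
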