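/-
S16 (U), level-one polynomial norm route (helper76): the family of `SL(2,ℤ)`-conjugates of a
weight-two form `G ≡ 1 mod l^b` on `Γ₀(p)` (with `l^b ∣ p + 1`) as a `Fam`, with lifts
`1 + l^b * H_v`, `H_v ∈ 𝒪⟦X⟧`.
-/
import Mathlib
import Fermat.Agent.S16.NormL1_76.Fam
import Fermat.Agent.S16.Conj53.WeightTwo
import Fermat.Agent.S16.UIface39

set_option autoImplicit false

open UpperHalfPlane ModularForm CongruenceSubgroup ModularGroup
open scoped MatrixGroups ModularForm Manifold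

namespace Fermat.Agent.S16.NormL1_76

open Conj53

variable {p l : ℕ} [hp : Fact p.Prime] [hl : Fact l.Prime]

theorem tr_comp_periodic {k : ℤ} (f : ModularForm (Gamma0 p) k) (n : ℤ) :
    Function.Periodic (tr f n ∘ ofComplex) (p : ℝ) := by
  intro w
  by_cases! hw : 0 < Complex.im w
  · have h2 : 0 < Complex.im (w + ((p : ℝ) : ℂ)) := by simp [hw]
    simp only [Function.comp_apply, ofComplex_apply_of_im_pos h2, ofComplex_apply_of_im_pos hw]
    rw [tr_apply, tr_apply]
    have h3 : ((n : ℝ) +ᵥ (⟨w + ((p : ℝ) : ℂ), h2⟩ : ℍ) : ℍ)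
        = ((p : ℕ) : ℝ) +ᵥ ((n : ℝ) +ᵥ (⟨w, hw⟩ : ℍ) : ℍ) := by
      ext
      simp only [coe_vadd]
      push_cast
      ring
    rw [h3, gS_vadd_p]
  · have h2 : Complex.im (w + ((p : ℝ) : ℂ)) ≤ 0 := by simpa using hw
    simp only [Function.comp_apply]
    rw [ofComplex_apply_of_im_nonpos h2, ofComplex_apply_of_im_nonpos hw]

theorem conj_comp_periodic {k : ℤ} (f : ModularForm (Gamma0 p) k) (v : Option (ZMod p)) :
    Function.Periodic (conj f v ∘ ofComplex) (p : ℝ) := by
  cases v with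
  | none =>
    have hper : Function.Periodic ((f : ℍ → ℂ) ∘ ofComplex) 1 :=
      SlashInvariantFormClass.periodic_comp_ofComplex f
        (CongruenceSubgroup.one_mem_strictPeriods_Gamma0 p)
    have := hper.nat_mul p
    simpa [conj] using this
  | some j => exact tr_comp_periodic f _

theorem conj_analytic {k : ℤ} (f : ModularForm (Gamma0 p) k) (v : Option (ZMod p)) :
    AnalyticAt ℂ (cuspFunction (p : ℝ) (conj f v)) 0 :=
  analyticAt_cuspFunction_zero (by exact_mod_cast hp.out.pos) (conj_comp_periodic f v)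
    (conj_mdiff f v) (conj_bdd f v)

theorem qExpansion_conj_none {k : ℤ} (f : ModularForm (Gamma0 p) k) (n : ℕ) :
    (qExpansion (p : ℝ) (conj f none)).coeff n =
      if p ∣ n then (qExpansion 1 f).coeff (n / p) else 0 := by
  have hper : Function.Periodic ((f : ℍ → ℂ) ∘ ofComplex) 1 :=
    SlashInvariantFormClass.periodic_comp_ofComplex f
      (CongruenceSubgroup.one_mem_strictPeriods_Gamma0 p)
  have h := UpperHalfPlane.qExpansion_coeff_nat_mul (h := 1) one_pos hper
    (ModularFormClass.holo f) (ModularFormClass.bdd_at_infty f) hp.out.pos n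
  rw [mul_one] at h
  exact h

theorem qExpansion_conj_some {k : ℤ} (f : ModularForm (Gamma0 p) k) (j : ZMod p) (n : ℕ) :
    (qExpansion (p : ℝ) (conj f (some j))).coeff n =
      bS f n * (zeta p ^ ((j.val : ℕ) : ℤ)) ^ n := by
  have : NeZero p := ⟨hp.out.ne_zero⟩
  exact coeff_unique_aux (by exact_mod_cast hp.out.pos) (conj_comp_periodic f (some j))
    (conj_mdiff f (some j)) (conj_bdd f (some j))
    (fun m => bS f m * (zeta p ^ ((j.val : ℕ) : ℤ)) ^ m) (fun τ => hasSum_tr f _ τ) n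

/-- A complex power series all of whose coefficients are `δ_{n0} + c * y_n` with `y_n ∈ 𝒪`
lifts to `1 + c * H`, `H ∈ 𝒪⟦X⟧`. -/
theorem exists_lift_one_add (P : PowerSeries ℂ) (c : ellInt l)
    (hP : ∀ n, ∃ y ∈ ellInt l, PowerSeries.coeff n P = (if n = 0 then 1 else 0) + (c : ℂ) * y) :
    ∃ H : PowerSeries (ellInt l), P = (1 + PowerSeries.C c * H).map (ellInt l).subtype := by
  choose y hy hP using hP
  refine ⟨PowerSeries.mk fun n => ⟨y n, hy n⟩, ?_⟩
  ext n
  rw [hP n, PowerSeries.coeff_map, map_add, PowerSeries.coeff_one, PowerSeries.coeff_C_mul,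
    PowerSeries.coeff_mk]
  split_ifs <;> simp

open UIface39 ModularFormClass in
/-- **Expansions of the conjugates**: if `G ≡ 1 mod l^b`, `l ≠ p`, `l^b ∣ p + 1`, every conjugate
of `G` has period-`p` expansion `1 + l^b * H_v` with `H_v ∈ 𝒪⟦X⟧`. -/
theorem exists_conj_lifts (b : ℕ) (hlp : l ≠ p) (hdvd : l ^ b ∣ p + 1)
    (G : ModularForm (Gamma0 p) 2) (h0 : qCoeff (G : ℍ → ℂ) 0 = 1)
    (hG : ∀ k : ℕ, 1 ≤ k → InPow l b (qCoeff (G : ℍ → ℂ) k)) (v : Option (ZMod p)) :
    ∃ H : PowerSeries (ellInt l), qExpansion (p : ℝ) (conj G v) =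
      (1 + PowerSeries.C ((l : ellInt l) ^ b) * H).map (ellInt l).subtype := by
  have hlp' : ¬ l ∣ p := fun h => hlp ((Nat.prime_dvd_prime_iff_eq hl.out hp.out).mp h)
  have hl0 : (l : ℂ) ≠ 0 := by exact_mod_cast hl.out.ne_zero
  have hp0 : (p : ℂ) ≠ 0 := by exact_mod_cast hp.out.ne_zero
  have hc : (((l : ellInt l) ^ b : ellInt l) : ℂ) = (l : ℂ) ^ b := by push_cast; rfl
  -- the coefficients of `G`
  have hG' : ∀ k : ℕ, 1 ≤ k → ∃ y ∈ ellInt l, (qExpansion 1 G).coeff k = (l : ℂ) ^ b * y := by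
    intro k hk
    obtain ⟨m, d, hd, h⟩ := hG k hk
    have hd0 : (d : ℂ) ≠ 0 := by
      intro h0
      apply hd
      have : d = 0 := by exact_mod_cast h0
      rw [this]; exact dvd_zero _
    refine ⟨(m : ℂ) / (d : ℂ), div_mem_ellInt m hd, ?_⟩
    have : (qExpansion 1 G).coeff k = qCoeff (G : ℍ → ℂ) k := rfl
    rw [this]
    field_simp
    exact h
  have h0' : (qExpansion 1 G).coeff 0 = 1 := h0
  have hpinv : ((p : ℂ))⁻¹ ∈ ellInt l := by
    have := div_mem_ellInt (l := l) 1 hlp'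
    simpa using this
  apply exists_lift_one_add
  intro n
  rw [hc]
  cases v with
  | none =>
    rw [qExpansion_conj_none]
    by_cases hn : n = 0
    · subst hn
      refine ⟨0, (ellInt l).zero_mem, ?_⟩
      simp [h0']
    · by_cases hpn : p ∣ n
      · obtain ⟨m, rfl⟩ := hpn
        have hm : 1 ≤ m := by
          rcases Nat.eq_zero_or_pos m with h | h
          · subst h; simp at hn
          · exact h
        obtain ⟨y, hy, hy'⟩ := hG' m hm
        refine ⟨y, hy, ?_⟩
        rw [if_pos (dvd_mul_right p m), Nat.mul_div_cancel_left m hp.out.pos, hy', if_neg hn,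
          zero_add]
      · refine ⟨0, (ellInt l).zero_mem, ?_⟩
        rw [if_neg hpn, if_neg hn]; simp
  | some j =>
    rw [qExpansion_conj_some, bS_weight_two]
    have hz : zeta p ^ ((j.val : ℕ) : ℤ) ∈ ellInt l := by
      have : NeZero p := ⟨hp.out.ne_zero⟩
      apply mem_ellInt_of_pow_eq_one hp.out.pos
      rw [zpow_natCast, ← pow_mul, mul_comm, pow_mul, zeta_pow_p, one_pow]
    by_cases hn : n = 0
    · subst hn
      obtain ⟨c', hc'⟩ := hdvd
      refine ⟨-((c' : ℂ) * (p : ℂ)⁻¹), (ellInt l).neg_mem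
        ((ellInt l).mul_mem (natCast_mem_ellInt c') hpinv), ?_⟩
      rw [mul_zero, h0', if_pos rfl, pow_zero]
      have h1 : ((p : ℂ) + 1) = (l : ℂ) ^ b * (c' : ℂ) := by exact_mod_cast hc'
      have hpp : (p : ℂ)⁻¹ * (p : ℂ) = 1 := inv_mul_cancel₀ hp0
      linear_combination (-(p : ℂ)⁻¹) * h1 + hpp
    · have hm : 1 ≤ p * n := Nat.mul_pos hp.out.pos (Nat.pos_of_ne_zero hn)
      obtain ⟨y, hy, hy'⟩ := hG' (p * n) hm
      refine ⟨-((p : ℂ)⁻¹) * y * (zeta p ^ ((j.val : ℕ) : ℤ)) ^ n,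
        (ellInt l).mul_mem ((ellInt l).mul_mem ((ellInt l).neg_mem hpinv) hy)
          ((ellInt l).pow_mem hz n), ?_⟩
      rw [hy', if_neg hn]
      ring

/-- The family of conjugates of `G`. -/
noncomputable def conjFam (G : ModularForm (Gamma0 p) 2) (c : ellInt l)
    (H : Option (ZMod p) → PowerSeries (ellInt l))
    (hH : ∀ v, qExpansion (p : ℝ) (conj G v) =
      (1 + PowerSeries.C c * H v).map (ellInt l).subtype) : Fam p l 2 where
  F := conj G
  hS := conj_slash_S G
  hT := conj_slash_T G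
  hol := conj_mdiff G
  bdd := conj_bdd G
  han := conj_analytic G
  F' v := 1 + PowerSeries.C c * H v
  hF' v := (hH v).symm

end Fermat.Agent.S16.NormL1_76
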