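/-
S16 (U), level-one polynomial norm route (helper76): `UIface39.U9Stmt` (`l = 3`) and
`UIface39.U8Stmt` (`l = 2`).

For `G ∈ M₂(Γ₀(p))`, `G ≡ 1 mod l^b` (`l^b ∣ p + 1`), all `p + 1` conjugates `G_v` of `G` have
period-`p` expansions `1 + l^b H_v`, `H_v ∈ 𝒪⟦X⟧` (`𝒪` = `l`-integral algebraic numbers).  With a
level-one isobaric polynomial `Ψ(G, E₄, E₆)` of weight `w < 12` such that `Ψ(G_v)/c ≡ D(q)`
mod `l` with `D = q + …` independent of `v`, the product of the `Ψ(G_v)/c` is a level-one form of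
weight `w (p + 1)` which is `≡ q^(p+1) + …` mod `l`: this contradicts the Sturm bound
`w (p + 1) / 12 < p + 1`.
* `l = 3`: `Ψ = G² - E₄`, `c = 3`, `D = ∑ σ₃(n) qⁿ`;
* `l = 2`: `Ψ = E₄² + 10 E₄ G² - 8 E₆ G - 3 G⁴`, `c = 256`, `D = tser + s3²` (helper44).
-/
import Mathlib
import Fermat.Agent.S16.NormL1_76.ConjFam
import Fermat.Agent.S16.NormCore44
import Fermat.Agent.S16.MillerSturm46

set_option autoImplicit false

open UpperHalfPlane ModularForm CongruenceSubgroup ModularGroup
open scoped MatrixGroups ModularForm Manifold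

namespace Fermat.Agent.S16.NormL1_76

variable {p l : ℕ} [hp : Fact p.Prime] [hl : Fact l.Prime]

/-- The image in `𝒪⟦X⟧` of an integral power series, expanded `X ↦ X^p`. -/
noncomputable def expI (p l : ℕ) [hp : Fact p.Prime] [Fact l.Prime] :
    PowerSeries ℤ →+* PowerSeries (ellInt l) :=
  ((PowerSeries.expand p hp.out.ne_zero : PowerSeries (ellInt l) →ₐ[ellInt l] _) : _ →+* _).comp
    (PowerSeries.map (Int.castRingHom (ellInt l)))

theorem expI_apply (P : PowerSeries ℤ) :
    expI p l P = PowerSeries.expand p hp.out.ne_zero (P.map (Int.castRingHom (ellInt l))) := rfl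

theorem coeff_expI_lt (P : PowerSeries ℤ) (h0 : PowerSeries.coeff 0 P = 0) {n : ℕ} (hn : n < p) :
    PowerSeries.coeff n (expI p l P) = 0 := by
  rw [expI_apply, PowerSeries.coeff_expand]
  split_ifs with h
  · have : n = 0 := Nat.eq_zero_of_dvd_of_lt h hn
    subst this
    simp [h0]
  · rfl

theorem coeff_expI_p (P : PowerSeries ℤ) :
    PowerSeries.coeff (p * 1) (expI p l P) = ((PowerSeries.coeff 1 P : ℤ) : ellInt l) := by
  rw [expI_apply, PowerSeries.coeff_expand_mul, PowerSeries.coeff_map]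
  rfl

/-- **One row of the table.**  A family `Ψ` of weight `w < 12` whose lifts are `c * Q_v` with
`Q_v = D₀(X^p) + l * R_v`, `D₀ = d q + …`, `l ∤ d`, cannot exist. -/
theorem row_false {w : ℤ} (hw0 : 0 ≤ w) (hw : w < 12) (Ψ : Fam p l w) (c : ℕ) (hc : c ≠ 0)
    (Q R : Option (ZMod p) → PowerSeries (ellInt l))
    (hQ : ∀ v, Ψ.F' v = (c : PowerSeries (ellInt l)) * Q v)
    (D0 : PowerSeries ℤ)
    (hQD : ∀ v, Q v = expI p l D0 + (l : PowerSeries (ellInt l)) * R v)
    (hD00 : PowerSeries.coeff 0 D0 = 0) (hld : ¬ (l : ℤ) ∣ PowerSeries.coeff 1 D0) : False := by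
  classical
  have hc0 : (c : ℂ) ≠ 0 := by exact_mod_cast hc
  let F : Option (ZMod p) → ℍ → ℂ := fun v => ((c : ℂ)⁻¹) • Ψ.F v
  have hS : ∀ a, F a ∣[w] S = F (Conj53.sigmaS a) := fun a => by
    simp only [F]; rw [SL_smul_slash, Ψ.hS]
  have hT : ∀ a, F a ∣[w] T = F (Conj53.sigmaT a) := fun a => by
    simp only [F]; rw [SL_smul_slash, Ψ.hT]
  have hol : ∀ a, MDiff (F a) := fun a => (Ψ.hol a).const_smul _
  have bdd : ∀ a, IsBoundedAtImInfty (F a) := fun a => (Ψ.bdd a).const_smul_left _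
  have han : ∀ a, AnalyticAt ℂ (cuspFunction (p : ℝ) (F a)) 0 := fun a => by
    simp only [F]
    rw [cuspFunction_smul (Ψ.han a).continuousAt]
    exact (Ψ.han a).const_smul
  have hF' : ∀ v, (Q v).map (ellInt l).subtype = qExpansion (p : ℝ) (F v) := by
    intro v
    simp only [F]
    have h1 : ((c : ℕ) : PowerSeries ℂ) = PowerSeries.C (c : ℂ) :=
      (map_natCast (PowerSeries.C (R := ℂ)) c).symm
    rw [qExpansion_smul (Ψ.han v), ← Ψ.hF', hQ, map_mul, map_natCast, h1,
      ← PowerSeries.smul_eq_C_mul, smul_smul, inv_mul_cancel₀ hc0, one_smul]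
  refine core_false sturmModStmt hw0 hw F _ _ hS hT hol bdd han Q hF' (expI p l D0) ?_ 1 le_rfl
    ?_ (PowerSeries.coeff 1 D0) (coeff_expI_p D0) hld
  · intro v n
    rw [hQD v, map_add, add_sub_cancel_left]
    have : (l : PowerSeries (ellInt l)) = PowerSeries.C ((l : ℕ) : ellInt l) := by simp
    rw [this, PowerSeries.coeff_C_mul]
    exact Ideal.mul_mem_right _ _ (Ideal.subset_span rfl)
  · intro n hn
    rw [mul_one] at hn
    rw [coeff_expI_lt D0 hD00 hn]
    exact Ideal.zero_mem _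

/-- Transport of a family along an equality of weights. -/
def Fam.cast {k k' : ℤ} (h : k = k') (A : Fam p l k) : Fam p l k' := h ▸ A

theorem Fam.cast_F' {k k' : ℤ} (h : k = k') (A : Fam p l k) : (A.cast h).F' = A.F' := by
  subst h; rfl

open ModularForm in
/-- The constant family of `E₄`. -/
noncomputable def famE4 (p l : ℕ) [Fact p.Prime] [Fact l.Prime] : Fam p l 4 :=
  Fam.const E₄ ModularCurve.eisenstein4 MillerSturm46.qExpansion_E4_eq

open ModularForm in
/-- The constant family of `E₆`. -/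
noncomputable def famE6 (p l : ℕ) [Fact p.Prime] [Fact l.Prime] : Fam p l 6 :=
  Fam.const E₆ MillerSturm46.eisenstein6 MillerSturm46.qExpansion_E6_eq

theorem famE4_F' (v : Option (ZMod p)) :
    (famE4 p l).F' v = 1 + 240 * expI p l NormCore44.s3 := by
  show expI p l ModularCurve.eisenstein4 = _
  rw [NormCore44.eisenstein4_eq, map_add, map_mul, map_one, map_ofNat]

theorem famE6_F' (v : Option (ZMod p)) :
    (famE6 p l).F' v = 1 - 504 * expI p l NormCore44.s5 := by
  show expI p l MillerSturm46.eisenstein6 = _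
  have : MillerSturm46.eisenstein6 = 1 - 504 * NormCore44.s5 := NormCore44.eisenstein6_eq
  rw [this, map_sub, map_mul, map_one, map_ofNat]

/-- **(U4)** `l = 3`: no `G ≡ 1 mod 9` when `9 ∣ p + 1`. -/
theorem u9Stmt : UIface39.U9Stmt := by
  intro p hp h5 h9 G h0 hG
  haveI : Fact p.Prime := ⟨hp⟩
  haveI : Fact (Nat.Prime 3) := ⟨Nat.prime_three⟩
  have hlp : (3 : ℕ) ≠ p := by omega
  have hdvd : 3 ^ 2 ∣ p + 1 := by norm_num; exact h9
  choose H hH using exists_conj_lifts (l := 3) 2 hlp hdvd G h0 hG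
  set GF : Fam p 3 2 := conjFam G _ H hH with hGF
  set Ψ : Fam p 3 4 := ((GF.mul GF).cast (by norm_num)).sub (famE4 p 3) with hΨ
  refine row_false (by norm_num) (by norm_num) Ψ 3 (by norm_num)
    (fun v => 6 * H v + 27 * H v ^ 2 - 80 * expI p 3 NormCore44.s3)
    (fun v => 2 * H v + 9 * H v ^ 2 - 27 * expI p 3 NormCore44.s3) ?_ NormCore44.s3 ?_
    (by simp [NormCore44.s3]) (by simp [NormCore44.s3])
  · intro v
    have h1 : Ψ.F' v = (GF.F' v * GF.F' v) - (famE4 p 3).F' v := by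
      rw [hΨ]
      show ((GF.mul GF).cast _).F' v - _ = _
      rw [Fam.cast_F']
      rfl
    have h2 : GF.F' v = 1 + PowerSeries.C (((3 : ℕ) : ellInt 3) ^ 2) * H v := rfl
    have h3 : PowerSeries.C (((3 : ℕ) : ellInt 3) ^ 2) = (9 : PowerSeries (ellInt 3)) := by
      rw [map_pow, map_natCast]; norm_num
    rw [h1, h2, h3, famE4_F']
    push_cast
    ring
  · intro v
    push_cast
    ring

/-- **(U5)** `l = 2`: no `G ≡ 1 mod 8` when `8 ∣ p + 1`. -/
theorem u8Stmt : UIface39.U8Stmt := by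
  intro p hp h5 h8 G h0 hG
  haveI : Fact p.Prime := ⟨hp⟩
  haveI : Fact (Nat.Prime 2) := ⟨Nat.prime_two⟩
  have hlp : (2 : ℕ) ≠ p := by omega
  have hdvd : 2 ^ 3 ∣ p + 1 := by norm_num; exact h8
  choose H hH using exists_conj_lifts (l := 2) 3 hlp hdvd G h0 hG
  set GF : Fam p 2 2 := conjFam G _ H hH with hGF
  set E4F : Fam p 2 4 := famE4 p 2 with hE4F
  set E6F : Fam p 2 6 := famE6 p 2 with hE6F
  set c10 : ellInt 2 := ((10 : ℕ) : ellInt 2) with hc10
  set c8 : ellInt 2 := ((8 : ℕ) : ellInt 2) with hc8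
  set c3 : ellInt 2 := ((3 : ℕ) : ellInt 2) with hc3
  set A1 : Fam p 2 8 := (E4F.mul E4F).cast (by norm_num) with hA1
  set A2 : Fam p 2 8 := (Fam.smul c10 (E4F.mul (GF.mul GF))).cast (by norm_num) with hA2
  set A3 : Fam p 2 8 := (Fam.smul c8 (E6F.mul GF)).cast (by norm_num) with hA3
  set A4 : Fam p 2 8 := (Fam.smul c3 ((GF.mul GF).mul (GF.mul GF))).cast (by norm_num) with hA4
  set Ψ : Fam p 2 8 := ((A1.add A2).sub A3).sub A4 with hΨ
  set S3 := expI p 2 NormCore44.s3 with hS3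
  set S5 := expI p 2 NormCore44.s5 with hS5
  set TT := expI p 2 NormCore44.tser with hTT
  have hrel : 5 * S3 + 7 * S5 = 12 * TT := by
    have := congrArg (expI p 2) NormCore44.five_s3_add_seven_s5
    rw [map_add, map_mul, map_mul, map_mul, map_ofNat, map_ofNat, map_ofNat] at this
    exact this
  refine row_false (by norm_num) (by norm_num) Ψ 256 (by norm_num)
    (fun v => NormCore44.psi2Quot S3 S5 TT (H v))
    (fun v => NormCore44.psi2Rem S3 S5 TT (H v)) ?_ (NormCore44.tser + NormCore44.s3 ^ 2) ?_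
    NormCore44.coeff_zero_tser_add (by rw [NormCore44.coeff_one_tser_add]; norm_num)
  · intro v
    have h1 : Ψ.F' v = (E4F.F' v * E4F.F' v
        + PowerSeries.C c10 * (E4F.F' v * (GF.F' v * GF.F' v)))
        - PowerSeries.C c8 * (E6F.F' v * GF.F' v)
        - PowerSeries.C c3 * ((GF.F' v * GF.F' v) * (GF.F' v * GF.F' v)) := by
      rw [hΨ]
      show (A1.F' v + A2.F' v) - A3.F' v - A4.F' v = _
      rw [hA1, hA2, hA3, hA4, Fam.cast_F', Fam.cast_F', Fam.cast_F', Fam.cast_F']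
      rfl
    have h2 : GF.F' v = 1 + PowerSeries.C (((2 : ℕ) : ellInt 2) ^ 3) * H v := rfl
    have h3 : PowerSeries.C (((2 : ℕ) : ellInt 2) ^ 3) = (8 : PowerSeries (ellInt 2)) := by
      rw [map_pow, map_natCast]; norm_num
    have h10 : PowerSeries.C c10 = (10 : PowerSeries (ellInt 2)) := by
      rw [hc10, map_natCast]; norm_num
    have h8' : PowerSeries.C c8 = (8 : PowerSeries (ellInt 2)) := by
      rw [hc8, map_natCast]; norm_num
    have h3' : PowerSeries.C c3 = (3 : PowerSeries (ellInt 2)) := by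
      rw [hc3, map_natCast]; norm_num
    rw [h1, h2, h3, h10, h8', h3', hE4F, hE6F, famE4_F', famE6_F']
    have := NormCore44.psi2_eq S3 S5 TT (H v) hrel
    push_cast
    rw [← this]
    ring
  · intro v
    rw [NormCore44.psi2Quot_eq, map_add, map_pow]
    push_cast
    ring

end Fermat.Agent.S16.NormL1_76
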