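/-
S16 (U), level-one polynomial norm route (helper76): abstract power-series bookkeeping.
If every factor of a finite product of power series is congruent, modulo an ideal `I`, to one fixed
series `D` whose coefficients below `a` lie in `I` and whose `a`-th coefficient is `≡ c`, then the
product has coefficients in `I` below `a * K` and its `(a * K)`-th coefficient is `≡ c ^ K`.
Mathlib only.
-/
import Mathlib

set_option autoImplicit false

namespace Fermat.Agent.S16.NormL1_76

open PowerSeries

variable {R : Type*} [CommRing R]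

theorem coeff_pow_of_X_pow_dvd {a : ℕ} {D E : PowerSeries R} (hD : D = X ^ a * E) (K n : ℕ) :
    coeff n (D ^ K) = if a * K ≤ n then coeff (n - a * K) (E ^ K) else 0 := by
  rw [hD, mul_pow, ← pow_mul, coeff_X_pow_mul']

theorem coeff_pow_lt {a : ℕ} {D : PowerSeries R} (hD : ∀ n < a, coeff n D = 0) (K n : ℕ)
    (hn : n < a * K) : coeff n (D ^ K) = 0 := by
  obtain ⟨E, hE⟩ := (X_pow_dvd_iff (φ := D)).mpr hD
  rw [coeff_pow_of_X_pow_dvd hE, if_neg (by omega)]

theorem coeff_pow_eq {a : ℕ} {D : PowerSeries R} (hD : ∀ n < a, coeff n D = 0) (K : ℕ) :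
    coeff (a * K) (D ^ K) = (coeff a D) ^ K := by
  obtain ⟨E, hE⟩ := (X_pow_dvd_iff (φ := D)).mpr hD
  rw [coeff_pow_of_X_pow_dvd hE, if_pos le_rfl, Nat.sub_self]
  have h1 : coeff a D = coeff 0 E := by
    rw [hE, coeff_X_pow_mul', if_pos le_rfl, Nat.sub_self]
  rw [h1, coeff_zero_eq_constantCoeff_apply, coeff_zero_eq_constantCoeff_apply, map_pow]

variable {O : Type*} [CommRing O] (I : Ideal O)

/-- The product congruence lemma. -/
theorem prod_congr_mod {V : Type*} [Fintype V] (F : V → PowerSeries O) (D : PowerSeries O)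
    (hF : ∀ v n, coeff n (F v) - coeff n D ∈ I)
    (a : ℕ) (hD0 : ∀ n < a, coeff n D ∈ I) :
    (∀ n < a * Fintype.card V, coeff n (∏ v, F v) ∈ I) ∧
      coeff (a * Fintype.card V) (∏ v, F v) - (coeff a D) ^ (Fintype.card V) ∈ I := by
  set π := Ideal.Quotient.mk I with hπ
  have hmap : ∀ v, (F v).map π = D.map π := by
    intro v
    ext n
    simp only [coeff_map]
    rw [← sub_eq_zero, ← map_sub, hπ, Ideal.Quotient.eq_zero_iff_mem]
    exact hF v n
  have hprod : (∏ v, F v).map π = (D.map π) ^ (Fintype.card V) := by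
    rw [map_prod]
    simp [hmap, Finset.card_univ]
  have hD0' : ∀ n < a, coeff n (D.map π) = 0 := by
    intro n hn
    rw [coeff_map, hπ, Ideal.Quotient.eq_zero_iff_mem]
    exact hD0 n hn
  refine ⟨fun n hn => ?_, ?_⟩
  · have := coeff_pow_lt hD0' (Fintype.card V) n hn
    rw [← hprod, coeff_map, hπ, Ideal.Quotient.eq_zero_iff_mem] at this
    exact this
  · have := coeff_pow_eq hD0' (Fintype.card V)
    rw [← hprod, coeff_map, coeff_map, ← map_pow, ← sub_eq_zero, ← map_sub, hπ,
      Ideal.Quotient.eq_zero_iff_mem] at this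
    exact this

end Fermat.Agent.S16.NormL1_76
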